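import Mathlib
import Fermat.Agent.S16x.Asm.H6_Int

/-!
# S16, leaf [UP3b] (helper27): the power series core

`R = intL 3` (the `3`-integral algebraic numbers), congruences modulo `3 R`.
If `A ≡ S(t^p) - κ` and `B_j ≡ S(t^p)` (`j` in an index set with `p` elements) modulo `3`, where
`S = q + ⋯` has `3`-integral coefficients, and `N(q)` is the series with
`N(t^p) = A ∏ B_j`, then `N` is `3`-integral and its order modulo `3` is `p` or `p + 1`.
-/

set_option autoImplicit false

open PowerSeries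

namespace Fermat.Agent.S16x.Up3.H27

/-- `3 ∈ intL 3`. -/
theorem three_mem : (3 : ℂ) ∈ intL 3 := by
  have := natCast_mem_intL 3 3
  simpa using this

theorem psMul_le_psInt {F : PowerSeries ℂ} (hF : F ∈ psMul 3 3) : F ∈ psInt 3 := by
  intro n
  obtain ⟨r, hr, e⟩ := hF n
  rw [e]
  exact Subring.mul_mem _ three_mem hr

theorem expand_mem_psInt {p : ℕ} (hp : p ≠ 0) {F : PowerSeries ℂ} (hF : F ∈ psInt 3) :
    expand p hp F ∈ psInt 3 := by
  intro n
  rw [coeff_expand]
  split_ifs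
  · exact hF _
  · exact Subring.zero_mem _

/-- A product of series `≡ B₀ mod 3` is `≡ B₀ ^ card mod 3`. -/
theorem prod_congr_mod {ι : Type*} (s : Finset ι) (B : ι → PowerSeries ℂ) (B₀ : PowerSeries ℂ)
    (hB₀ : B₀ ∈ psInt 3) (hB : ∀ j ∈ s, ∃ W ∈ psInt 3, B j = B₀ + C (3 : ℂ) * W) :
    ∃ W ∈ psInt 3, ∏ j ∈ s, B j = B₀ ^ s.card + C (3 : ℂ) * W := by
  classical
  induction s using Finset.induction_on with
  | empty => exact ⟨0, Subring.zero_mem _, by simp⟩
  | insert a s ha ih =>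
    obtain ⟨W, hW, e⟩ := ih fun j hj => hB j (Finset.mem_insert_of_mem hj)
    obtain ⟨Wa, hWa, ea⟩ := hB a (Finset.mem_insert_self a s)
    refine ⟨Wa * B₀ ^ s.card + B₀ * W + C (3 : ℂ) * (Wa * W), ?_, ?_⟩
    · refine Subring.add_mem _ (Subring.add_mem _ (Subring.mul_mem _ hWa
        (Subring.pow_mem _ hB₀ _)) (Subring.mul_mem _ hB₀ hW)) ?_
      exact Subring.mul_mem _ (C_mem_psInt three_mem) (Subring.mul_mem _ hWa hW)
    · rw [Finset.prod_insert ha, Finset.card_insert_of_notMem ha, e, ea]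
      ring

/-- **The core of [UP3b].** -/
theorem core (p : ℕ) (hp : p ≠ 0) (κ : ℂ) (hκ : κ ∈ intL 3)
    (S : PowerSeries ℂ) (hS : S ∈ psInt 3) (hS0 : coeff 0 S = 0) (hS1 : coeff 1 S = 1)
    {ι : Type*} [Fintype ι] (hι : Fintype.card ι = p)
    (A : PowerSeries ℂ) (B : ι → PowerSeries ℂ)
    (hA : ∃ W ∈ psInt 3, A = (expand p hp S - C κ) + C (3 : ℂ) * W)
    (hB : ∀ j, ∃ W ∈ psInt 3, B j = expand p hp S + C (3 : ℂ) * W)
    (Nq : PowerSeries ℂ) (hN : ∀ n, coeff n Nq = coeff (p * n) (A * ∏ j, B j)) :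
    Nq ∈ psInt 3 ∧ ∃ m, p ≤ m ∧ (∀ n < m, ∃ r ∈ intL 3, coeff n Nq = (3 : ℂ) * r) ∧
      ¬ ∃ r ∈ intL 3, coeff m Nq = (3 : ℂ) * r := by
  classical
  have hES : expand p hp S ∈ psInt 3 := expand_mem_psInt hp hS
  obtain ⟨WB, hWB, eB⟩ := prod_congr_mod (Finset.univ : Finset ι) B (expand p hp S) hES
    fun j _ => hB j
  rw [Finset.card_univ, hι] at eB
  obtain ⟨WA, hWA, eA⟩ := hA
  -- the main term
  set Q : PowerSeries ℂ := (S - C κ) * S ^ p with hQ
  have hCκ : (C κ : PowerSeries ℂ) ∈ psInt 3 := C_mem_psInt hκ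
  have hQint : Q ∈ psInt 3 :=
    Subring.mul_mem _ (Subring.sub_mem _ hS hCκ) (Subring.pow_mem _ hS _)
  have hmain : (expand p hp S - C κ) * expand p hp S ^ p = expand p hp Q := by
    rw [hQ, map_mul, map_pow, map_sub, expand_C]
  -- the product
  obtain ⟨W, hW, eP⟩ : ∃ W ∈ psInt 3, A * ∏ j, B j = expand p hp Q + C (3 : ℂ) * W := by
    refine ⟨(expand p hp S - C κ) * WB + WA * expand p hp S ^ p + C (3 : ℂ) * (WA * WB), ?_, ?_⟩
    · refine Subring.add_mem _ (Subring.add_mem _ (Subring.mul_mem _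
        (Subring.sub_mem _ hES hCκ) hWB) (Subring.mul_mem _ hWA (Subring.pow_mem _ hES _))) ?_
      exact Subring.mul_mem _ (C_mem_psInt three_mem) (Subring.mul_mem _ hWA hWB)
    · rw [eA, eB, ← hmain]; ring
  have hcoeff : ∀ n, coeff n Nq = coeff n Q + (3 : ℂ) * coeff (p * n) W := by
    intro n
    rw [hN, eP, map_add, coeff_expand_mul, coeff_C_mul]
  -- integrality
  have hNint : Nq ∈ psInt 3 := by
    intro n
    rw [hcoeff]
    exact Subring.add_mem _ (hQint n) (Subring.mul_mem _ three_mem (hW _))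
  refine ⟨hNint, ?_⟩
  -- `S = X * U`
  obtain ⟨U, hU⟩ : ∃ U : PowerSeries ℂ, S = X * U := by
    have : (X : PowerSeries ℂ) ∣ S := X_dvd_iff.mpr (by simpa using hS0)
    exact this
  have hUint : U ∈ psInt 3 := by
    intro n
    have := hS (n + 1)
    rw [hU, coeff_succ_X_mul] at this
    exact this
  have hU0 : coeff 0 U = 1 := by
    have := hS1
    rw [hU, show (1 : ℕ) = 0 + 1 from rfl, coeff_succ_X_mul] at this
    exact this
  set V : PowerSeries ℂ := (S - C κ) * U ^ p with hV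
  have hSp : S ^ p = X ^ p * U ^ p := by
    rw [hU, mul_pow]
  have hQV : Q = X ^ p * V := by
    rw [hQ, hV, hSp]
    ring
  have hS0' : constantCoeff S = 0 := by
    rw [← coeff_zero_eq_constantCoeff_apply]; exact hS0
  have hU0' : constantCoeff U = 1 := by
    rw [← coeff_zero_eq_constantCoeff_apply]; exact hU0
  have hV0 : coeff 0 V = -κ := by
    rw [coeff_zero_eq_constantCoeff_apply, hV, map_mul, map_sub, map_pow, hS0', hU0',
      constantCoeff_C]
    ring
  have hQlt : ∀ n < p, coeff n Q = 0 := by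
    intro n hn
    rw [hQV, coeff_X_pow_mul', if_neg (by omega)]
  have hQp : coeff p Q = -κ := by
    rw [hQV, coeff_X_pow_mul', if_pos le_rfl, Nat.sub_self, hV0]
  have hQp1 : coeff (p + 1) Q = 1 - κ * coeff 1 (U ^ p) := by
    have hanti : (Finset.HasAntidiagonal.antidiagonal (1 : ℕ) : Finset (ℕ × ℕ)) = {(0, 1), (1, 0)} := by
      decide
    have h1 : coeff 1 (C κ : PowerSeries ℂ) = 0 := by
      rw [coeff_C]; simp
    have h0 : coeff 0 (U ^ p) = 1 := by
      rw [coeff_zero_eq_constantCoeff_apply, map_pow, hU0', one_pow]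
    have h00 : coeff 0 (C κ : PowerSeries ℂ) = κ := coeff_zero_C κ
    rw [hQV, coeff_X_pow_mul', if_pos (by omega), show p + 1 - p = 1 by omega, hV, coeff_mul,
      hanti, Finset.sum_pair (by decide)]
    simp only [map_sub, hS0, hS1, h1, h0, h00]
    ring
  have hc : coeff 1 (U ^ p) ∈ intL 3 := (Subring.pow_mem _ hUint p) 1
  by_cases hcase : ∃ r ∈ intL 3, coeff p Nq = (3 : ℂ) * r
  · -- then `κ ∈ 3 R` and the order is `p + 1`
    obtain ⟨r, hr, er⟩ := hcase
    have hκ3 : κ = (3 : ℂ) * (coeff (p * p) W - r) := by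
      have := hcoeff p
      rw [er, hQp] at this
      linear_combination this
    refine ⟨p + 1, by omega, ?_, ?_⟩
    · intro n hn
      rcases Nat.lt_succ_iff_lt_or_eq.mp hn with h | h
      · exact ⟨coeff (p * n) W, hW _, by rw [hcoeff, hQlt n h, zero_add]⟩
      · exact ⟨r, hr, by rw [h, er]⟩
    · rintro ⟨r', hr', er'⟩
      have := hcoeff (p + 1)
      rw [er', hQp1] at this
      have h1 : (1 : ℂ) = (3 : ℂ) * (r' - coeff (p * (p + 1)) W +
          (coeff (p * p) W - r) * coeff 1 (U ^ p)) := by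
        linear_combination (-1 : ℂ) * this + coeff 1 (U ^ p) * hκ3
      have hmem : r' - coeff (p * (p + 1)) W + (coeff (p * p) W - r) * coeff 1 (U ^ p) ∈
          intL 3 :=
        Subring.add_mem _ (Subring.sub_mem _ hr' (hW _))
          (Subring.mul_mem _ (Subring.sub_mem _ (hW _) hr) hc)
      exact one_ne_mul_of_mem Nat.prime_three hmem (by exact_mod_cast h1)
  · refine ⟨p, le_rfl, ?_, hcase⟩
    intro n hn
    exact ⟨coeff (p * n) W, hW _, by rw [hcoeff, hQlt n hn, zero_add]⟩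

end Fermat.Agent.S16x.Up3.H27
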