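import Fermat.Agent.S16x.Asm.Defs
import Fermat.Agent.S16x.Conj.Defs
import Fermat.Agent.S16x.L1.Defs
import Fermat.Agent.S16x.Up3.H27_Core

/-!
# S16, leaf [UP3b] (helper27): no `G ∈ M_2(Γ₀(p))` is `≡ 1 mod 9` (`3`-integrally), `p ≡ 2 mod 3`

`stUP3b_of` : `Asm.StUP3b p` from the leaves of [CONJ] (`StMainCoeff`, `StInfty`, `StTwo`,
`StAlg`, `StNice`, `StRing`) and [L1] (`StINT`, `StORD`).

Proof (helper4's uniform argument, board 852).  Let `u = -1/p`, `κ = (1 - u³)/9` (`3`-integral since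
`9 ∣ p³ + 1`), `Y = (1/9 - κ) E₆ - (1/9) G³ ∈ M_6(Γ₀(p))`.  With `S = ∑ σ₅(n) qⁿ`, `t = q^{1/p}`:
`Y ≡ S(t^p) - κ` and `Y ∣ S T^j ≡ S(t^p)` modulo `3`, so the norm `N(Y) ∈ M_{6(p+1)}(SL₂(ℤ))` is
`≡ (S - κ) S^p` modulo `3`: its order modulo `3` is `≥ p`, against `StORD` (`12 m ≤ 6 (p + 1)`).
-/

set_option autoImplicit false
set_option linter.unusedSectionVars false
set_option linter.unusedVariables false

open UpperHalfPlane ModularForm EisensteinSeries CongruenceSubgroup PowerSeries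

open scoped MatrixGroups ModularForm Manifold

namespace Fermat.Agent.S16x.Up3.H27

open Fermat.Agent.S16x.Conj

theorem map_gamma0_le (N : ℕ) :
    Subgroup.map (Matrix.SpecialLinearGroup.mapGL ℝ) (Gamma0 N) ≤ 𝒮ℒ := by
  rintro _ ⟨γ, -, rfl⟩
  exact ⟨γ, rfl⟩

/-- A level-one modular form, viewed on `Γ₀(N)`. -/
noncomputable def resL (N : ℕ) {k : ℤ} (F : ModularForm 𝒮ℒ k) : ModularForm (Gamma0 N) k where
  toFun := F
  slash_action_eq' γ hγ := F.slash_action_eq' γ (map_gamma0_le N hγ)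
  holo' := F.holo'
  bdd_at_cusps' hc := F.bdd_at_cusps' (hc.mono (map_gamma0_le N))

@[simp] theorem coe_resL (N : ℕ) {k : ℤ} (F : ModularForm 𝒮ℒ k) :
    (⇑(resL N F) : ℍ → ℂ) = ⇑F := rfl

variable (p : ℕ) [Fact p.Prime]

/-- The form `c E₆ + d G³` of weight `6` on `Γ₀(p)`. -/
noncomputable def yForm (c d : ℂ) (G : ModularForm (Gamma0 p) 2) : ModularForm (Gamma0 p) 6 :=
  c • resL p E₆ + d • ModularForm.mcast (by norm_num) (G.pow 3)

theorem coe_yForm (c d : ℂ) (G : ModularForm (Gamma0 p) 2) :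
    (⇑(yForm p c d G) : ℍ → ℂ) = c • (⇑E₆ : ℍ → ℂ) + d • ((⇑G : ℍ → ℂ) * ⇑G * ⇑G) := by
  ext z
  have h : (G.pow 3) z = G z * G z * G z := by
    rw [ModularForm.coe_pow]
    simp [pow_succ]
  simp [yForm, h]


section Conjugates

variable {p}

theorem cj_yForm (hAlg : StAlg p) (c d : ℂ) (G : ModularForm (Gamma0 p) 2)
    (x : OnePoint (ZMod p)) :
    cj p 6 (⇑(yForm p c d G)) x =
      c • (⇑E₆ : ℍ → ℂ) + d • (cj p 2 ⇑G x * cj p 2 ⇑G x * cj p 2 ⇑G x) := by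
  obtain ⟨hmul, hadd, hsmul, hone⟩ := hAlg
  have h1 : cj p 6 ((⇑G : ℍ → ℂ) * ⇑G * ⇑G) x = cj p (4 + 2) ((⇑G * ⇑G) * ⇑G) x := rfl
  have h2 : cj p 4 ((⇑G : ℍ → ℂ) * ⇑G) x = cj p (2 + 2) (⇑G * ⇑G) x := rfl
  rw [coe_yForm, hadd, hsmul, hsmul, hone 6 E₆ x, h1, hmul, h2, hmul]

theorem nice_E6 (hAlg : StAlg p) (hNice : StNice p) : Nice p (⇑E₆ : ℍ → ℂ) := by
  have h := hNice 6 (resL p E₆) OnePoint.infty
  rw [coe_resL, hAlg.2.2.2 6 E₆ OnePoint.infty] at h
  exact h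

theorem tExp_E6 (hAlg : StAlg p) (hInfty : StInfty p) :
    tExp p (⇑E₆ : ℍ → ℂ) =
      PowerSeries.expand p (Fact.out : p.Prime).ne_zero (UpperHalfPlane.qExpansion 1 E₆) := by
  have h := hInfty 6 (resL p E₆)
  rw [coe_resL, hAlg.2.2.2 6 E₆ OnePoint.infty] at h
  exact h

theorem tExp_cj_yForm (hAlg : StAlg p) (hNice : StNice p) (hRing : StRing p) (c d : ℂ)
    (G : ModularForm (Gamma0 p) 2) (x : OnePoint (ZMod p)) :
    tExp p (cj p 6 (⇑(yForm p c d G)) x) =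
      C c * tExp p (⇑E₆ : ℍ → ℂ) + C d * (tExp p (cj p 2 ⇑G x)) ^ 3 := by
  obtain ⟨hadd, hmul, hsmul, -, -⟩ := hRing
  have hE := nice_E6 hAlg hNice
  have hG := hNice 2 G x
  have hGG := hmul _ _ hG hG
  have hGGG := hmul _ _ hGG.1 hG
  have h1 := hsmul c _ hE
  have h2 := hsmul d _ hGGG.1
  rw [cj_yForm hAlg, (hadd _ _ h1.1 h2.1).2, h1.2, h2.2, hGGG.2, hGG.2, smul_eq_C_mul,
    smul_eq_C_mul]
  ring

end Conjugates


section Arithmetic

/-- `9 ∣ p³ + 1` for `p ≡ 2 mod 3`. -/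
theorem nine_dvd {p : ℕ} (hp : p % 3 = 2) : ∃ m : ℕ, p ^ 3 + 1 = 9 * m := by
  obtain ⟨a, rfl⟩ : ∃ a, p = 3 * a + 2 := ⟨p / 3, by omega⟩
  exact ⟨(a + 1) * (3 * a ^ 2 + 3 * a + 1), by ring⟩

theorem zeta_pow (p : ℕ) (hp : p ≠ 0) : zeta p ^ p = 1 := by
  unfold zeta
  rw [← Complex.exp_nat_mul]
  have hp' : (p : ℂ) ≠ 0 := Nat.cast_ne_zero.mpr hp
  have : (p : ℂ) * (2 * Real.pi * Complex.I / p) = 2 * Real.pi * Complex.I := by
    field_simp
  rw [this, Complex.exp_two_pi_mul_I]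

theorem zeta_mem (p : ℕ) (hp : p ≠ 0) (ℓ : ℕ) : zeta p ∈ intL ℓ := by
  refine mem_intL_of_isIntegral ℓ ?_
  refine ⟨Polynomial.X ^ p - 1, Polynomial.monic_X_pow_sub_C 1 hp, ?_⟩
  simp [zeta_pow p hp]

end Arithmetic


section Main

variable {p}

/-- the `q`-expansion of `G` is `1 + 9 g` with `g` `3`-integral. -/
theorem exists_g (G : ModularForm (Gamma0 p) 2) (h : Asm.IsOneMod p 3 9 G) :
    ∃ g ∈ psInt 3, PowerSeries.coeff 0 g = 0 ∧
      UpperHalfPlane.qExpansion 1 G = 1 + C (9 : ℂ) * g := by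
  obtain ⟨h0, b, hb, hk⟩ := h
  have hb3 : Nat.Coprime b 3 := by
    rw [Nat.coprime_comm]; exact (Nat.Prime.coprime_iff_not_dvd Nat.prime_three).mpr hb
  have hb0 : b ≠ 0 := by rintro rfl; exact hb (dvd_zero 3)
  have hbC : (b : ℂ) ≠ 0 := Nat.cast_ne_zero.mpr hb0
  refine ⟨PowerSeries.mk fun n => if n = 0 then 0 else
    PowerSeries.coeff n (UpperHalfPlane.qExpansion 1 G) / 9, ?_, ?_, ?_⟩
  · intro n
    rw [coeff_mk]
    split_ifs with hn
    · exact Subring.zero_mem _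
    · obtain ⟨c, hc⟩ := hk n (Nat.one_le_iff_ne_zero.mpr hn)
      have e : PowerSeries.coeff n (UpperHalfPlane.qExpansion 1 G) / 9 = (c : ℂ) / (b : ℂ) := by
        have hc' : (b : ℂ) * PowerSeries.coeff n (UpperHalfPlane.qExpansion 1 G) =
            9 * (c : ℂ) := by
          have := hc
          unfold ModularFormClass.qCoeff at this
          rw [this]; push_cast; ring
        field_simp
        linear_combination hc'
      rw [e]
      exact div_mem_intL 3 c hb3 hb0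
  · rw [coeff_mk, if_pos rfl]
  · ext n
    rw [map_add, coeff_C_mul, coeff_mk, coeff_one]
    by_cases hn : n = 0
    · subst hn
      have := h0
      unfold ModularFormClass.qCoeff at this
      rw [this]; simp
    · rw [if_neg hn, if_neg hn]
      ring

/-- The decomposition of the conjugate series. -/
theorem conjSeries_eq (hp0 : p ≠ 0) (g : PowerSeries ℂ) (hg0 : PowerSeries.coeff 0 g = 0)
    (j : ℕ) :
    conjSeries p (1 + C (9 : ℂ) * g) j = C (-(1 / (p : ℂ))) + C (9 : ℂ) *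
      PowerSeries.mk (fun n => if n = 0 then 0 else
        -(1 / (p : ℂ)) * PowerSeries.coeff (p * n) g * zeta p ^ (j * n)) := by
  ext n
  unfold conjSeries
  rw [coeff_mk, map_add, map_add, coeff_C_mul, coeff_C_mul, coeff_mk, coeff_one, coeff_C]
  by_cases hn : n = 0
  · subst hn
    simp only [mul_zero, hg0, if_true, pow_zero]
    ring
  · have hpn : p * n ≠ 0 := Nat.mul_ne_zero hp0 hn
    rw [if_neg hn, if_neg hn, if_neg hpn]
    ring

theorem sigmaSer_mem : L1.sigmaSer 5 ∈ psInt 3 := by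
  intro n
  unfold L1.sigmaSer
  rw [coeff_mk]
  exact natCast_mem_intL 3 _

theorem sigmaSer_zero : PowerSeries.coeff 0 (L1.sigmaSer 5) = 0 := by
  unfold L1.sigmaSer
  rw [coeff_mk]
  simp

theorem sigmaSer_one : PowerSeries.coeff 1 (L1.sigmaSer 5) = 1 := by
  unfold L1.sigmaSer
  rw [coeff_mk]
  simp


/-- **[UP3b] from the leaves of [CONJ] and [L1].** -/
theorem stUP3b_of (hMain : StMainCoeff p) (hInfty : StInfty p) (hTwo : StTwo p)
    (hAlg : StAlg p) (hNice : StNice p) (hRing : StRing p) (hINT : L1.StINT)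
    (hORD : L1.StORD) : Asm.StUP3b p := by
  intro hp5 hp3 G hG
  have hpP : p.Prime := Fact.out
  have hp0 : p ≠ 0 := hpP.ne_zero
  have hpC : (p : ℂ) ≠ 0 := Nat.cast_ne_zero.mpr hp0
  have hp3' : Nat.Coprime p 3 := by
    rw [Nat.coprime_comm]
    exact (Nat.Prime.coprime_iff_not_dvd Nat.prime_three).mpr (by omega)
  -- the constants
  obtain ⟨m, hm⟩ := nine_dvd hp3
  set u : ℂ := -(1 / (p : ℂ)) with hu
  set κ : ℂ := (1 - u ^ 3) / 9 with hκ
  have hκm : κ = ((m : ℤ) : ℂ) / ((p ^ 3 : ℕ) : ℂ) := by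
    have h9 : ((p : ℂ)) ^ 3 + 1 = 9 * (m : ℂ) := by exact_mod_cast hm
    rw [hκ, hu]
    push_cast
    field_simp
    linear_combination h9
  have hκR : κ ∈ intL 3 := by
    rw [hκm]
    exact div_mem_intL 3 (m : ℤ) (Nat.Coprime.pow_left 3 hp3') (pow_ne_zero 3 hp0)
  have huR : u ∈ intL 3 := by
    have := div_mem_intL 3 (-1 : ℤ) hp3' hp0
    have e : ((-1 : ℤ) : ℂ) / (p : ℂ) = u := by rw [hu]; push_cast; ring
    rwa [e] at this
  have hinvp : (1 / (p : ℂ)) ∈ intL 3 := by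
    have := div_mem_intL 3 (1 : ℤ) hp3' hp0
    have e : ((1 : ℤ) : ℂ) / (p : ℂ) = 1 / (p : ℂ) := by push_cast; ring
    rwa [e] at this
  -- the q-expansions
  obtain ⟨g, hgR, hg0, hgq⟩ := exists_g G hG
  set S : PowerSeries ℂ := L1.sigmaSer 5 with hS
  have hSR : S ∈ psInt 3 := sigmaSer_mem
  have hE6 : UpperHalfPlane.qExpansion 1 E₆ = 1 - C (504 : ℂ) * S := hINT.2.1
  set e := PowerSeries.expand (R := ℂ) p hp0 with he
  have heS : e S ∈ psInt 3 := expand_mem_psInt hp0 hSR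
  have heg : e g ∈ psInt 3 := expand_mem_psInt hp0 hgR
  -- power series constants
  set K : PowerSeries ℂ := C κ with hK
  set N9 : PowerSeries ℂ := C ((1 : ℂ) / 9) with hN9
  set Cu : PowerSeries ℂ := C u with hCu
  have h9 : (9 : PowerSeries ℂ) * N9 = 1 := by
    rw [hN9, show (9 : PowerSeries ℂ) = C (9 : ℂ) from (map_ofNat C 9).symm, ← map_mul]
    norm_num
  have hK9 : (9 : PowerSeries ℂ) * K = 1 - Cu ^ 3 := by
    rw [hK, hCu, show (9 : PowerSeries ℂ) = C (9 : ℂ) from (map_ofNat C 9).symm, ← map_mul,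
      ← map_pow, show (1 : PowerSeries ℂ) = C (1 : ℂ) from (map_one C).symm, ← map_sub]
    congr 1
    rw [hκ]; ring
  have hKR : K ∈ psInt 3 := C_mem_psInt hκR
  have hCuR : Cu ∈ psInt 3 := C_mem_psInt huR
  have hnum : ∀ n : ℕ, (n : PowerSeries ℂ) ∈ psInt 3 := fun n => natCast_mem _ n
  have hcd : (C ((1 : ℂ) / 9 - κ) : PowerSeries ℂ) = N9 - K := by rw [map_sub]
  have hd : (C (-((1 : ℂ) / 9)) : PowerSeries ℂ) = -N9 := by rw [map_neg]
  have h504 : (C (504 : ℂ) : PowerSeries ℂ) = 504 := map_ofNat C 504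
  have h9C : (C (9 : ℂ) : PowerSeries ℂ) = 9 := map_ofNat C 9
  have h3C : (C (3 : ℂ) : PowerSeries ℂ) = 3 := map_ofNat C 3
  -- the form
  set Y := yForm p ((1 : ℂ) / 9 - κ) (-((1 : ℂ) / 9)) G with hY
  have hTE : tExp p (⇑E₆ : ℍ → ℂ) = 1 - 504 * e S := by
    rw [tExp_E6 hAlg hInfty, hE6, map_sub, map_one, map_mul, h504, map_ofNat]
  -- the conjugate at infinity
  have hA : ∃ W ∈ psInt 3, tExp p (cj p 6 (⇑Y) OnePoint.infty) =
      (e S - C κ) + C (3 : ℂ) * W := by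
    refine ⟨(168 * K - 19) * e S - (e g + 9 * e g ^ 2 + 27 * e g ^ 3), ?_, ?_⟩
    · refine Subring.sub_mem _ (Subring.mul_mem _ (Subring.sub_mem _
        (Subring.mul_mem _ (hnum 168) hKR) (hnum 19)) heS) ?_
      exact Subring.add_mem _ (Subring.add_mem _ heg (Subring.mul_mem _ (hnum 9)
        (Subring.pow_mem _ heg _))) (Subring.mul_mem _ (hnum 27) (Subring.pow_mem _ heg _))
    · rw [hY, tExp_cj_yForm hAlg hNice hRing, hTE, hInfty 2 G, hgq, map_add, map_one,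
        map_mul, h9C, map_ofNat, hcd, hd, h3C]
      linear_combination (-(56 * e S + 3 * e g + 27 * e g ^ 2 + 81 * e g ^ 3)) * h9
  -- the other conjugates
  have hB : ∀ j : ZMod p, ∃ W ∈ psInt 3, tExp p (cj p 6 (⇑Y) (OnePoint.some j)) =
      e S + C (3 : ℂ) * W := by
    intro j
    set h : PowerSeries ℂ := PowerSeries.mk (fun n => if n = 0 then 0 else
        -(1 / (p : ℂ)) * PowerSeries.coeff (p * n) g * zeta p ^ (j.val * n)) with hh
    have hhR : h ∈ psInt 3 := by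
      intro n
      rw [hh, coeff_mk]
      split_ifs
      · exact Subring.zero_mem _
      · exact Subring.mul_mem _ (Subring.mul_mem _ (Subring.neg_mem _ hinvp) (hgR _))
          (Subring.pow_mem _ (zeta_mem p hp0 3) _)
    refine ⟨(168 * K - 19) * e S - (Cu ^ 2 * h + 9 * Cu * h ^ 2 + 27 * h ^ 3), ?_, ?_⟩
    · refine Subring.sub_mem _ (Subring.mul_mem _ (Subring.sub_mem _
        (Subring.mul_mem _ (hnum 168) hKR) (hnum 19)) heS) ?_
      exact Subring.add_mem _ (Subring.add_mem _ (Subring.mul_mem _ (Subring.pow_mem _ hCuR _)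
        hhR) (Subring.mul_mem _ (Subring.mul_mem _ (hnum 9) hCuR) (Subring.pow_mem _ hhR _)))
        (Subring.mul_mem _ (hnum 27) (Subring.pow_mem _ hhR _))
    · rw [hY, tExp_cj_yForm hAlg hNice hRing, hTE, hTwo G j, hgq, conjSeries_eq hp0 g hg0,
        ← hu, ← hh, ← hCu, h9C, hcd, hd, h3C]
      linear_combination (-N9) * hK9 +
        (K - (56 * e S + 3 * Cu ^ 2 * h + 27 * Cu * h ^ 2 + 81 * h ^ 3)) * h9
  -- the norm
  set Nf := Fermat.Agent.S23.esymmMF Y (p + 1) with hNf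
  have hN : ∀ n, PowerSeries.coeff n (UpperHalfPlane.qExpansion 1 Nf) =
      PowerSeries.coeff (p * n) (tExp p (cj p 6 (⇑Y) OnePoint.infty) *
        ∏ j : ZMod p, tExp p (cj p 6 (⇑Y) (OnePoint.some j))) := by
    intro n
    rw [hNf, hMain 6 Y (p + 1) n, Finset.esymm_map_val]
    have hcard : (Finset.univ : Finset (OnePoint (ZMod p))).card = p + 1 := by
      rw [Finset.card_univ]
      change Fintype.card (Option (ZMod p)) = p + 1
      rw [Fintype.card_option, ZMod.card]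
    rw [← hcard, Finset.powersetCard_self, Finset.sum_singleton]
    congr 1
    exact Fintype.prod_option _
  obtain ⟨hNint, m', hpm, hlt, hnot⟩ := core p hp0 κ hκR S hSR sigmaSer_zero sigmaSer_one
    (ι := ZMod p) (ZMod.card p) _ _ hA hB _ hN
  have hfinal := hORD (intL 3) 3 (by norm_num) (6 * ((p + 1 : ℕ) : ℤ)) Nf
    (fun n => hNint n) m'
    (fun n hn => by
      obtain ⟨r, hr, er⟩ := hlt n hn
      exact ⟨r, hr, by rw [er]; norm_num⟩)
    (fun ⟨r, hr, er⟩ => hnot ⟨r, hr, by rw [er]; norm_num⟩)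
  push_cast at hfinal
  omega

end Main

end Fermat.Agent.S16x.Up3.H27

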