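import Fermat.Agent.S16x.Up3.H27_UP3b
import Fermat.Agent.S16x.Conj.H3_Final
import Fermat.Agent.S16x.Conj.H20_Two
import Fermat.Agent.S16x.L1.H13_Final

/-!
# S16, leaf [UP3b], hypothesis-free (helper27)

`stUP3b p : Asm.StUP3b p`: the leaves of [CONJ] (helper3, helper9, helper20) and of [L1]
(helper15, helper13) plugged into `stUP3b_of`.
-/

set_option autoImplicit false

namespace Fermat.Agent.S16x.Up3.H27

open Fermat.Agent.S16x

/-- **[UP3b]** for `p ≥ 5`, `p ≡ 2 mod 3`, no `G ∈ M_2(Γ₀(p))` is `≡ 1 mod 9` (`3`-integrally). -/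
theorem stUP3b (p : ℕ) [Fact p.Prime] : Asm.StUP3b p :=
  stUP3b_of (Conj.H3.stMainCoeff p) (Conj.H3.stInfty p) (Conj.H20.stTwo p) (Conj.H3.stAlg p)
    (Conj.H3.stNice p) (Conj.H3.stRing p) L1.H15.h15_stINT L1.H13.stORD

end Fermat.Agent.S16x.Up3.H27
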